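import Mathlib
import Fermat.Agent.S52.Seams

/-!
# S52 / [ROOTLESS] (prefix `s52o_`)

The quartic `(X+27)(X+3)³ (C₄³ - C₆²) - 1728 C₄³ X` has no root in `ℂ(s)` as soon as the poles of
`j = 1728 C₄³ / (C₄³ - C₆²)` have order prime to `3`.

If `h ∈ ℂ(s)` is a root, then at every pole of `h` one has `ord j = 3 ord h` (the cusp `0` of
`X₀(3)` has width `3`); and a non-constant `h` has a pole.  In polynomial terms, with `h = A / B`
in lowest terms: `(A + 27 B)(A + 3 B)³ Δ' = 1728 C₄³ A B³`, so every root of `B` is a root of `Δ'`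
of multiplicity `3 · mult_B`, and if `B = 1` then `3 deg A = 3 deg C₄ - deg Δ'`.
-/

set_option autoImplicit false

namespace Fermat.Agent.S52

open Polynomial

noncomputable section

/-- the polynomial identity behind a root `A / B` of the quartic -/
theorem s52o_poly_identity (C4 C6 : Polynomial ℚ) (h : RatFunc ℂ)
    (hroot : ((s52_quartic C4 C6).map ((algebraMap (Polynomial ℂ) (RatFunc ℂ)).comp
      (Polynomial.mapRingHom (algebraMap ℚ ℂ)))).eval h = 0) :
    (h.num + C 27 * h.denom) * (h.num + C 3 * h.denom) ^ 3 *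
        ((C4 ^ 3 - C6 ^ 2).map (algebraMap ℚ ℂ)) =
      C 1728 * (C4.map (algebraMap ℚ ℂ)) ^ 3 * h.num * h.denom ^ 3 := by
  set φ : Polynomial ℚ →+* RatFunc ℂ := (algebraMap (Polynomial ℂ) (RatFunc ℂ)).comp
    (Polynomial.mapRingHom (algebraMap ℚ ℂ)) with hφ
  set a : RatFunc ℂ := algebraMap (Polynomial ℂ) (RatFunc ℂ) h.num with ha
  set b : RatFunc ℂ := algebraMap (Polynomial ℂ) (RatFunc ℂ) h.denom with hb
  have hb0 : b ≠ 0 := by
    rw [hb]
    exact RatFunc.algebraMap_ne_zero h.denom_ne_zero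
  have hh : h = a / b := (RatFunc.num_div_denom h).symm
  have hev : ((s52_quartic C4 C6).map φ).eval h =
      (h + 27) * (h + 3) ^ 3 * φ (C4 ^ 3 - C6 ^ 2) - φ (1728 * C4 ^ 3) * h := by
    simp only [s52_quartic, Polynomial.map_sub, Polynomial.map_mul, Polynomial.map_add,
      Polynomial.map_pow, Polynomial.map_X, Polynomial.map_C, eval_sub, eval_mul, eval_add,
      eval_pow, eval_X, eval_C]
    have h27 : φ (27 : Polynomial ℚ) = 27 := map_ofNat φ 27
    have h3 : φ (3 : Polynomial ℚ) = 3 := map_ofNat φ 3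
    rw [h27, h3]
  rw [hev] at hroot
  have hφD : φ (C4 ^ 3 - C6 ^ 2) =
      algebraMap (Polynomial ℂ) (RatFunc ℂ) ((C4 ^ 3 - C6 ^ 2).map (algebraMap ℚ ℂ)) := rfl
  have hφC : φ (1728 * C4 ^ 3) =
      1728 * (algebraMap (Polynomial ℂ) (RatFunc ℂ) (C4.map (algebraMap ℚ ℂ))) ^ 3 := by
    rw [map_mul, map_pow, map_ofNat]
    rfl
  rw [hφD, hφC, hh] at hroot
  set d : RatFunc ℂ :=
    algebraMap (Polynomial ℂ) (RatFunc ℂ) ((C4 ^ 3 - C6 ^ 2).map (algebraMap ℚ ℂ)) with hd
  set c : RatFunc ℂ := algebraMap (Polynomial ℂ) (RatFunc ℂ) (C4.map (algebraMap ℚ ℂ)) with hc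
  have key : (a + 27 * b) * (a + 3 * b) ^ 3 * d = 1728 * c ^ 3 * a * b ^ 3 := by
    have h1 : (a / b + 27) * (a / b + 3) ^ 3 * d - 1728 * c ^ 3 * (a / b) =
        ((a + 27 * b) * (a + 3 * b) ^ 3 * d - 1728 * c ^ 3 * a * b ^ 3) / b ^ 4 := by
      field_simp
    rw [h1, div_eq_zero_iff] at hroot
    rcases hroot with hroot | hroot
    · exact sub_eq_zero.mp hroot
    · exact absurd (pow_eq_zero_iff (by norm_num) |>.mp hroot) hb0
  apply RatFunc.algebraMap_injective ℂ
  simp only [map_mul, map_add, map_pow]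
  have hC27 : algebraMap (Polynomial ℂ) (RatFunc ℂ) (C 27) = 27 := by
    rw [show (C 27 : Polynomial ℂ) = 27 from rfl, map_ofNat]
  have hC3 : algebraMap (Polynomial ℂ) (RatFunc ℂ) (C 3) = 3 := by
    rw [show (C 3 : Polynomial ℂ) = 3 from rfl, map_ofNat]
  have hC1728 : algebraMap (Polynomial ℂ) (RatFunc ℂ) (C 1728) = 1728 := by
    rw [show (C 1728 : Polynomial ℂ) = 1728 from rfl, map_ofNat]
  rw [hC27, hC3, hC1728]
  exact key

/-- `C₄` and `Δ'` have no common complex root -/
theorem s52o_no_common_root (C4 C6 : Polynomial ℚ) (hcop : IsCoprime C4 (C4 ^ 3 - C6 ^ 2))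
    (z : ℂ) (h1 : (C4.map (algebraMap ℚ ℂ)).IsRoot z)
    (h2 : ((C4 ^ 3 - C6 ^ 2).map (algebraMap ℚ ℂ)).IsRoot z) : False := by
  obtain ⟨u, v, huv⟩ := hcop
  have := congrArg (fun P : Polynomial ℚ => (P.map (algebraMap ℚ ℂ)).eval z) huv
  simp only [Polynomial.map_add, Polynomial.map_mul, eval_add, eval_mul, Polynomial.map_one,
    eval_one] at this
  rw [IsRoot.def.mp h1, IsRoot.def.mp h2, mul_zero, mul_zero, add_zero] at this
  exact zero_ne_one this

/-- multiplicity of a root in a cube -/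
theorem s52o_rootMultiplicity_cube {P : Polynomial ℂ} (hP : P ≠ 0) (z : ℂ) :
    (P ^ 3).rootMultiplicity z = 3 * P.rootMultiplicity z := by
  have h2 : P * P ≠ 0 := mul_ne_zero hP hP
  have h3 : P * P * P ≠ 0 := mul_ne_zero h2 hP
  rw [show P ^ 3 = P * P * P by ring, rootMultiplicity_mul h3, rootMultiplicity_mul h2]
  ring

/-- **[ROOTLESS] over `ℂ(s)`**: the quartic of `X₀(3)` over `j = 1728 C₄³ / (C₄³ - C₆²)` has no
root in `ℂ(s)` when all poles of `j` have order prime to `3`. -/
theorem s52o_rootlessC (C4 C6 : Polynomial ℚ) (hD : C4 ^ 3 - C6 ^ 2 ≠ 0)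
    (hcop : IsCoprime C4 (C4 ^ 3 - C6 ^ 2))
    (hnc : ¬ ∃ c : ℚ, C4 ^ 3 = C c * (C4 ^ 3 - C6 ^ 2))
    (hmult : ∀ z : ℂ, ¬ 3 ∣ ((C4 ^ 3 - C6 ^ 2).map (algebraMap ℚ ℂ)).rootMultiplicity z ∨
      ((C4 ^ 3 - C6 ^ 2).map (algebraMap ℚ ℂ)).rootMultiplicity z = 0)
    (hinf : ¬ 3 ∣ 3 * C4.natDegree - (C4 ^ 3 - C6 ^ 2).natDegree ∨
      3 * C4.natDegree ≤ (C4 ^ 3 - C6 ^ 2).natDegree) :
    ∀ h : RatFunc ℂ, ((s52_quartic C4 C6).map ((algebraMap (Polynomial ℂ) (RatFunc ℂ)).comp
      (Polynomial.mapRingHom (algebraMap ℚ ℂ)))).eval h ≠ 0 := by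
  intro h hroot
  have hid := s52o_poly_identity C4 C6 h hroot
  have hinj : Function.Injective (algebraMap ℚ ℂ) := (algebraMap ℚ ℂ).injective
  set A : Polynomial ℂ := h.num with hA
  set B : Polynomial ℂ := h.denom with hB
  set d : Polynomial ℂ := (C4 ^ 3 - C6 ^ 2).map (algebraMap ℚ ℂ) with hd
  set c : Polynomial ℂ := C4.map (algebraMap ℚ ℂ) with hc
  have hd0 : d ≠ 0 := (Polynomial.map_ne_zero_iff hinj).mpr hD
  have hB0 : B ≠ 0 := h.denom_ne_zero
  have hBm : B.Monic := h.monic_denom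
  have hAB : IsCoprime A B := h.isCoprime_num_denom
  -- Step 1: `B = 1`
  have hB1 : B = 1 := by
    by_contra hBne
    have hdeg : B.degree ≠ 0 := by
      intro h0
      apply hBne
      exact eq_one_of_monic_natDegree_zero hBm (natDegree_eq_of_degree_eq_some h0)
    obtain ⟨z, hz⟩ := IsAlgClosed.exists_root B hdeg
    have hAz : ¬ A.IsRoot z := by
      intro hAz
      obtain ⟨u, v, huv⟩ := hAB
      have := congrArg (fun P : Polynomial ℂ => P.eval z) huv
      simp only [eval_add, eval_mul, eval_one] at this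
      rw [IsRoot.def.mp hAz, IsRoot.def.mp hz, mul_zero, mul_zero, add_zero] at this
      exact zero_ne_one this
    have hA0 : A ≠ 0 := by
      rintro h0
      apply hAz
      rw [h0]
      exact IsRoot.def.mpr (eval_zero)
    have h27 : ¬ (A + C 27 * B).IsRoot z := by
      intro h'
      apply hAz
      have := IsRoot.def.mp h'
      rw [eval_add, eval_mul, IsRoot.def.mp hz, mul_zero, add_zero] at this
      exact IsRoot.def.mpr this
    have h3 : ¬ (A + C 3 * B).IsRoot z := by
      intro h'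
      apply hAz
      have := IsRoot.def.mp h'
      rw [eval_add, eval_mul, IsRoot.def.mp hz, mul_zero, add_zero] at this
      exact IsRoot.def.mpr this
    have h27' : A + C 27 * B ≠ 0 := fun h0 => h27 (by rw [h0]; exact IsRoot.def.mpr eval_zero)
    have h3' : A + C 3 * B ≠ 0 := fun h0 => h3 (by rw [h0]; exact IsRoot.def.mpr eval_zero)
    have hm : 0 < B.rootMultiplicity z := (rootMultiplicity_pos hB0).mpr hz
    -- the left side
    have hL0 : (A + C 27 * B) * (A + C 3 * B) ^ 3 * d ≠ 0 :=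
      mul_ne_zero (mul_ne_zero h27' (pow_ne_zero 3 h3')) hd0
    have hL : ((A + C 27 * B) * (A + C 3 * B) ^ 3 * d).rootMultiplicity z =
        d.rootMultiplicity z := by
      rw [rootMultiplicity_mul hL0, rootMultiplicity_mul (left_ne_zero_of_mul hL0),
        s52o_rootMultiplicity_cube h3', rootMultiplicity_eq_zero h27,
        rootMultiplicity_eq_zero h3]
      ring
    -- the right side
    have hR0 : C 1728 * c ^ 3 * A * B ^ 3 ≠ 0 := hid ▸ hL0
    have hc0 : c ≠ 0 := by
      rintro h0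
      apply hR0
      rw [h0]
      ring
    have hC : (C (1728 : ℂ)) ≠ 0 := by
      rw [Ne, C_eq_zero]
      norm_num
    have hR : (C 1728 * c ^ 3 * A * B ^ 3).rootMultiplicity z =
        3 * c.rootMultiplicity z + 3 * B.rootMultiplicity z := by
      rw [rootMultiplicity_mul hR0, rootMultiplicity_mul (left_ne_zero_of_mul hR0),
        rootMultiplicity_mul (left_ne_zero_of_mul (left_ne_zero_of_mul hR0)),
        s52o_rootMultiplicity_cube hc0, s52o_rootMultiplicity_cube hB0, rootMultiplicity_C,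
        rootMultiplicity_eq_zero hAz]
      ring
    have hkey : d.rootMultiplicity z = 3 * c.rootMultiplicity z + 3 * B.rootMultiplicity z := by
      rw [← hL, hid, hR]
    have hdpos : 0 < d.rootMultiplicity z := by omega
    have hdz : d.IsRoot z := (rootMultiplicity_pos hd0).mp hdpos
    have hcz : c.rootMultiplicity z = 0 := by
      by_contra hne
      have : c.IsRoot z := (rootMultiplicity_pos hc0).mp (Nat.pos_of_ne_zero hne)
      exact s52o_no_common_root C4 C6 hcop z this hdz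
    rcases hmult z with h3d | h0
    · apply h3d
      rw [hkey, hcz]
      exact ⟨B.rootMultiplicity z, by ring⟩
    · omega
  -- Step 2: `h = A` is a polynomial
  rw [hB1] at hid
  simp only [mul_one, one_pow] at hid
  have hc0 : c ≠ 0 := by
    rintro h0
    have h1 : IsCoprime c d := by
      exact hcop.map (Polynomial.mapRingHom (algebraMap ℚ ℂ))
    rw [h0, isCoprime_zero_left] at h1
    -- `d` is a unit, hence `j = 0` is constant
    apply hnc
    refine ⟨0, ?_⟩
    have hC4 : C4 = 0 := (Polynomial.map_eq_zero_iff hinj).mp h0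
    rw [hC4]
    simp
  by_cases ha : A.natDegree = 0
  · -- `h` is a constant `α`
    obtain ⟨α, hα⟩ := natDegree_eq_zero.mp ha
    rw [← hα] at hid
    have hid' : C ((α + 27) * (α + 3) ^ 3) * d = C (1728 * α) * c ^ 3 := by
      rw [C_mul, C_mul, C_pow, C_add, C_add]
      linear_combination hid
    by_cases hα0 : (α + 27) * (α + 3) ^ 3 = 0
    · rw [hα0, C_0, zero_mul] at hid'
      have hα1 : (1728 * α : ℂ) ≠ 0 := by
        rcases mul_eq_zero.mp hα0 with h | h
        · have : α = -27 := by linear_combination h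
          rw [this]; norm_num
        · have : α = -3 := by
            have := pow_eq_zero_iff (by norm_num) |>.mp h
            linear_combination this
          rw [this]; norm_num
      have : C (1728 * α) * c ^ 3 ≠ 0 :=
        mul_ne_zero (by rwa [Ne, C_eq_zero]) (pow_ne_zero 3 hc0)
      exact this hid'.symm
    · -- `c ^ 3 = κ d`
      apply hnc
      have hα1 : (1728 * α : ℂ) ≠ 0 := by
        intro h0
        rw [h0, C_0, zero_mul] at hid'
        exact (mul_ne_zero (by rwa [Ne, C_eq_zero]) hd0) hid'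
      set κ : ℂ := (α + 27) * (α + 3) ^ 3 / (1728 * α) with hκ
      have hcd : c ^ 3 = C κ * d := by
        have : C (1728 * α) * c ^ 3 = C (1728 * α) * (C κ * d) := by
          rw [← hid', ← mul_assoc, ← C_mul, hκ, mul_div_cancel₀ _ hα1]
        exact mul_left_cancel₀ (by rwa [Ne, C_eq_zero]) this
      -- descend `κ` to `ℚ`
      set n := (C4 ^ 3 - C6 ^ 2).natDegree with hn
      have hlc : (C4 ^ 3 - C6 ^ 2).coeff n ≠ 0 := by
        rw [hn]
        exact leadingCoeff_ne_zero.mpr hD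
      have hco := congrArg (fun P : Polynomial ℂ => P.coeff n) hcd
      simp only [coeff_C_mul] at hco
      have hc3 : c ^ 3 = (C4 ^ 3).map (algebraMap ℚ ℂ) := by
        rw [hc, Polynomial.map_pow]
      rw [hc3, hd, coeff_map, coeff_map] at hco
      have hκq : κ = algebraMap ℚ ℂ ((C4 ^ 3).coeff n / (C4 ^ 3 - C6 ^ 2).coeff n) := by
        rw [map_div₀, hco, mul_div_assoc, div_self ((map_ne_zero_iff _ hinj).mpr hlc), mul_one]
      refine ⟨(C4 ^ 3).coeff n / (C4 ^ 3 - C6 ^ 2).coeff n, ?_⟩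
      apply Polynomial.map_injective _ hinj
      rw [Polynomial.map_mul, Polynomial.map_C, ← hκq, ← hc3, hcd]
  · -- `deg A ≥ 1`: compare degrees
    have hA0 : A ≠ 0 := by
      rintro h0
      apply ha
      rw [h0, natDegree_zero]
    have h27 : (A + C 27).natDegree = A.natDegree := natDegree_add_C
    have h3 : (A + C 3).natDegree = A.natDegree := natDegree_add_C
    have h27' : A + C 27 ≠ 0 := by
      intro h0
      rw [h0, natDegree_zero] at h27
      exact ha h27.symm
    have h3' : A + C 3 ≠ 0 := by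
      intro h0
      rw [h0, natDegree_zero] at h3
      exact ha h3.symm
    have hC : (C (1728 : ℂ)) ≠ 0 := by
      rw [Ne, C_eq_zero]
      norm_num
    have hdegL : ((A + C 27) * (A + C 3) ^ 3 * d).natDegree =
        4 * A.natDegree + d.natDegree := by
      rw [natDegree_mul (mul_ne_zero h27' (pow_ne_zero 3 h3')) hd0,
        natDegree_mul h27' (pow_ne_zero 3 h3'), natDegree_pow, h27, h3]
      ring
    have hdegR : (C 1728 * c ^ 3 * A).natDegree = 3 * c.natDegree + A.natDegree := by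
      rw [natDegree_mul (mul_ne_zero hC (pow_ne_zero 3 hc0)) hA0,
        natDegree_mul hC (pow_ne_zero 3 hc0), natDegree_C, natDegree_pow]
      ring
    have hcdeg : c.natDegree = C4.natDegree := natDegree_map _
    have hddeg : d.natDegree = (C4 ^ 3 - C6 ^ 2).natDegree := natDegree_map _
    have hdeg : 4 * A.natDegree + d.natDegree = 3 * c.natDegree + A.natDegree := by
      rw [← hdegL, ← hdegR, hid]
    rw [hcdeg, hddeg] at hdeg
    rcases hinf with h | h
    · apply h
      exact ⟨A.natDegree, by omega⟩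
    · omega


/-- the embedding `ℚ[s] → ℂ(s)` -/
def s52o_phi : Polynomial ℚ →+* RatFunc ℂ :=
  (algebraMap (Polynomial ℂ) (RatFunc ℂ)).comp (Polynomial.mapRingHom (algebraMap ℚ ℂ))

theorem s52o_phi_injective : Function.Injective s52o_phi := by
  refine (RatFunc.algebraMap_injective ℂ).comp ?_
  exact Polynomial.map_injective _ (algebraMap ℚ ℂ).injective

/-- the embedding `ℚ(s) → ℂ(s)` -/
def s52o_psi : RatFunc ℚ →+* RatFunc ℂ :=
  IsFractionRing.lift (A := Polynomial ℚ) (K := RatFunc ℚ) s52o_phi_injective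

theorem s52o_psi_comp : s52o_psi.comp (algebraMap (Polynomial ℚ) (RatFunc ℚ)) = s52o_phi := by
  refine RingHom.ext fun x => ?_
  exact IsFractionRing.lift_algebraMap s52o_phi_injective x

/-- a root in `ℚ(s)` gives a root in `ℂ(s)` -/
theorem s52o_root_map (P : Polynomial (Polynomial ℚ)) (h : RatFunc ℚ)
    (hroot : (P.map (algebraMap (Polynomial ℚ) (RatFunc ℚ))).eval h = 0) :
    (P.map s52o_phi).eval (s52o_psi h) = 0 := by
  have := congrArg s52o_psi hroot
  rw [map_zero, eval_map, Polynomial.hom_eval₂, s52o_psi_comp] at this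
  rw [eval_map]
  exact this

/-- **[ROOTLESS]**: the quartic of `X₀(3)` over `j = 1728 C₄³ / (C₄³ - C₆²)` has no root in
`ℚ(s)` (not even in `ℂ(s)`) when all poles of `j` have order prime to `3`. -/
theorem s52o_rootless (C4 C6 : Polynomial ℚ) (hD : C4 ^ 3 - C6 ^ 2 ≠ 0)
    (hcop : IsCoprime C4 (C4 ^ 3 - C6 ^ 2))
    (hnc : ¬ ∃ c : ℚ, C4 ^ 3 = C c * (C4 ^ 3 - C6 ^ 2))
    (hmult : ∀ z : ℂ, ¬ 3 ∣ ((C4 ^ 3 - C6 ^ 2).map (algebraMap ℚ ℂ)).rootMultiplicity z ∨
      ((C4 ^ 3 - C6 ^ 2).map (algebraMap ℚ ℂ)).rootMultiplicity z = 0)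
    (hinf : ¬ 3 ∣ 3 * C4.natDegree - (C4 ^ 3 - C6 ^ 2).natDegree ∨
      3 * C4.natDegree ≤ (C4 ^ 3 - C6 ^ 2).natDegree) :
    s52_Rootless (s52_quartic C4 C6) := by
  intro h hroot
  exact s52o_rootlessC C4 C6 hD hcop hnc hmult hinf (s52o_psi h)
    (s52o_root_map (s52_quartic C4 C6) h hroot)

end

end Fermat.Agent.S52
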