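import Mathlib
import Fermat.Agent.S24.Hurwitz.Interface

/-!
# S52 / [ROOTLESS], bridge [STAB-ORD] (prefix `s52o_`)

`K` algebraically closed of characteristic `0`, `F/K` a function field, `G` a finite group acting
on `F` with fixed field `K(y)` (`IsGaloisGroup G K⟮y⟯ F`).  For a place `v` of `F` over `y = c`:

  `ord_v (y - c) = #{σ ∈ G | σ (O_v) ⊆ O_v}`   (`s52o_ord_eq_card_stab'`),

i.e. the ramification index is the order of the stabiliser (= inertia group: the residue field is
`K`).  This is Mathlib's `Ideal.card_stabilizer_eq` for `K[y] ⊆` its integral closure in `F`,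
translated into the `Place` vocabulary by the dictionary of `S24/Hurwitz/IntegralClosure.lean`.

Forms for `G = Gal(F/K(x))`: `s52o_ord_eq_card_stab` (finite `c`) and
`s52o_ord_eq_card_stab_infty` (poles of `x`).
-/

set_option autoImplicit false

namespace Fermat.Agent.S52

open AlgebraicCurve IntermediateField Polynomial IsDedekindDomain Fermat.Agent.S24
open scoped IntermediateField.algebraAdjoinAdjoin Pointwise

universe u v
variable {K : Type u} {F : Type v} [Field K] [Field F] [Algebra K F]

/-- `K[y]` -/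
abbrev s52o_R (y : F) : Subalgebra K F := Algebra.adjoin K ({y} : Set F)

/-- the integral closure of `K[y]` in `F` -/
abbrev s52o_B (y : F) : Subalgebra (s52o_R (K := K) y) F := integralClosure (s52o_R (K := K) y) F

section General

variable {G : Type*} [Group G] [MulSemiringAction G F] (y : F)

/-- `G` commutes with `K[y]` when it commutes with `K(y)`. -/
theorem s52o_smulComm [SMulCommClass G K⟮y⟯ F] : SMulCommClass G (s52o_R (K := K) y) F where
  smul_comm σ r f := by
    have hr : r • f = (⟨(r : F), IntermediateField.algebra_adjoin_le_adjoin K _ r.2⟩ : K⟮y⟯) • f :=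
      rfl
    rw [hr, smul_comm]
    rfl

variable [Finite G] [hG : IsGaloisGroup G K⟮y⟯ F]

/-- the stabiliser of a place, as a set of group elements -/
def s52o_stab (v : Place K F) : Set G :=
  {σ | ∀ f : F, f ∈ v.toValuationSubring → σ • f ∈ v.toValuationSubring}

variable {y}

omit [Finite G] hG in
theorem s52o_stab_pow {v : Place K F} {σ : G} (hσ : σ ∈ s52o_stab (K := K) v) (n : ℕ) :
    σ ^ n ∈ s52o_stab (K := K) v := by
  induction n with
  | zero => intro f hf; simpa using hf
  | succ n ih =>
    intro f hf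
    rw [pow_succ, mul_smul]
    exact ih _ (hσ f hf)

omit hG in
theorem s52o_stab_inv {v : Place K F} {σ : G} (hσ : σ ∈ s52o_stab (K := K) v) :
    σ⁻¹ ∈ s52o_stab (K := K) v := by
  have hfin : IsOfFinOrder σ := isOfFinOrder_of_finite σ
  have hpos : 0 < orderOf σ := hfin.orderOf_pos
  have : σ⁻¹ = σ ^ (orderOf σ - 1) := by
    rw [inv_eq_iff_mul_eq_one, ← pow_succ', Nat.sub_add_cancel hpos, pow_orderOf_eq_one]
  rw [this]
  exact s52o_stab_pow hσ _

end General

section Main

variable [IsAlgClosed K] [CharZero K]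
variable {G : Type*} [Group G] [Finite G] [MulSemiringAction G F] {y : F}
  (hy : Transcendental K y) [FiniteDimensional K⟮y⟯ F] [hG : IsGaloisGroup G K⟮y⟯ F]

set_option maxHeartbeats 1600000 in
set_option synthInstance.maxHeartbeats 400000 in
include hy in
/-- **[STAB-ORD]**, general group: the ramification index over `y = c` is the order of the
stabiliser. -/
theorem s52o_ord_eq_card_stab' (c : K) (v : Place K F)
    (hv : 0 < v.ord (y - algebraMap K F c)) :
    v.ord (y - algebraMap K F c) = (Nat.card (s52o_stab (K := K) (G := G) v) : ℤ) := by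
  classical
  let _ : SMulCommClass G K⟮y⟯ F := hG.commutes
  let _ : SMulCommClass G (s52o_R (K := K) y) F := s52o_smulComm y
  have hPID := hw_isPrincipalIdealRing_adjoin hy
  have hDed := integralClosure.isDedekindDomain (s52o_R (K := K) y) K⟮y⟯ F
  have hfin : Module.Finite (s52o_R (K := K) y) (s52o_B (K := K) y) :=
    IsIntegralClosure.finite (s52o_R (K := K) y) K⟮y⟯ F (s52o_B (K := K) y)
  have hfrac : IsFractionRing (s52o_B (K := K) y) F :=
    integralClosure.isFractionRing_of_finite_extension K⟮y⟯ F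
  have hflat : Module.Flat (s52o_R (K := K) y) (s52o_B (K := K) y) := inferInstance
  have hfaith : FaithfulSMul (s52o_R (K := K) y) (s52o_B (K := K) y) :=
    (faithfulSMul_iff_algebraMap_injective _ _).mpr (fun a b h => by
      have := congrArg (algebraMap (s52o_B (K := K) y) F) h
      exact Subtype.ext this)
  have hGal : IsGaloisGroup G (s52o_R (K := K) y) (s52o_B (K := K) y) :=
    IsGaloisGroup.of_isFractionRing G (s52o_R (K := K) y) (s52o_B (K := K) y) K⟮y⟯ F
  -- the prime `(y - c)` of `K[y]`
  let yR : s52o_R (K := K) y := ⟨y, Algebra.self_mem_adjoin_singleton K y⟩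
  let t : s52o_R (K := K) y := yR - algebraMap K _ c
  have ht_coe : algebraMap (s52o_B (K := K) y) F (algebraMap (s52o_R (K := K) y) _ t) =
      y - algebraMap K F c := rfl
  have htpoly : t = hw_polyEquiv hy (X - C c) := by
    apply Subtype.ext
    rw [hw_polyEquiv_coe]
    simp [t, yR]
  have hirr : Irreducible t := by
    rw [htpoly]
    exact (MulEquiv.irreducible_iff (hw_polyEquiv hy)).mpr (irreducible_X_sub_C c)
  have ht : t ≠ 0 := hirr.ne_zero
  have hmax : (Ideal.span {t}).IsMaximal := PrincipalIdealRing.isMaximal_of_irreducible hirr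
  have hK : Function.Surjective (algebraMap K (s52o_R (K := K) y ⧸ Ideal.span {t})) := by
    intro z
    obtain ⟨r, rfl⟩ := Ideal.Quotient.mk_surjective z
    obtain ⟨p, rfl⟩ := (hw_polyEquiv hy).surjective r
    refine ⟨p.eval c, ?_⟩
    rw [IsScalarTower.algebraMap_apply K (s52o_R (K := K) y), Ideal.Quotient.algebraMap_eq,
      eq_comm, Ideal.Quotient.mk_eq_mk_iff_sub_mem, Ideal.mem_span_singleton, htpoly]
    have h1 : p - C (p.eval c) = (X - C c) * (p /ₘ (X - C c)) := by
      have := modByMonic_add_div p (X - C c)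
      rw [modByMonic_X_sub_C_eq_C_eval] at this
      linear_combination (-1 : K[X]) * this
    refine ⟨hw_polyEquiv hy (p /ₘ (X - C c)), ?_⟩
    rw [← map_mul, ← h1, map_sub]
    congr 1
    exact ((hw_polyEquiv hy).commutes (p.eval c)).symm
  -- `B ⊆ O_v`
  have hne : y - algebraMap K F c ≠ 0 := by
    intro h; rw [h] at hv; simp at hv
  have hyv : y ∈ v.toValuationSubring := by
    have h1 : y - algebraMap K F c ∈ v.toValuationSubring :=
      (hw_mem_iff_ord_nonneg v hne).mpr hv.le
    have := v.toValuationSubring.add_mem _ _ h1 (v.algebraMap_mem' c)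
    simpa using this
  have hB : ∀ b : s52o_B (K := K) y, algebraMap (s52o_B (K := K) y) F b ∈ v.toValuationSubring :=
    fun b => hw_coe_mem_of_mem_integralClosure y v hyv b
  set Q := hw_primeOfPlace v hB with hQ
  set p : Ideal (s52o_R (K := K) y) := Ideal.span {t} with hp
  have hvQ : hw_placeOfPrime (s52o_B (K := K) y) Q = v := hw_placeOfPrime_primeOfPlace v hB
  have htQ : algebraMap (s52o_R (K := K) y) (s52o_B (K := K) y) t ∈ Q.asIdeal := by
    rw [hw_mem_primeOfPlace_iff]
    intro hu
    have h1 := (v.adicValuation_coe_eq_one_iff _).mpr hu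
    rw [hw_inclB_coe, ht_coe] at h1
    rw [hw_ord_eq_neg_log, h1] at hv
    simp at hv
  have hlies : Q.asIdeal.LiesOver p := by
    constructor
    have hle : p ≤ Q.asIdeal.under (s52o_R (K := K) y) := by
      rw [hp, Ideal.span_le, Set.singleton_subset_iff]
      exact htQ
    have hne' : Q.asIdeal.under (s52o_R (K := K) y) ≠ ⊤ := by
      intro h
      have : (1 : s52o_R (K := K) y) ∈ Q.asIdeal.under (s52o_R (K := K) y) := by rw [h]; trivial
      rw [Ideal.under_def, Ideal.mem_comap, map_one] at this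
      exact Q.isPrime.ne_top ((Ideal.eq_top_iff_one _).mpr this)
    exact hmax.eq_of_le hne' hle
  have hQprime : Q.asIdeal.IsPrime := Q.isPrime
  have hpprime : p.IsPrime := hmax.isPrime
  -- residue field of `p` is perfect
  have hchar : CharZero p.ResidueField := by
    exact charZero_of_injective_ringHom (algebraMap K p.ResidueField).injective
  have hperf : PerfectField p.ResidueField := PerfectField.ofCharZero
  -- the count
  have hcard := Ideal.card_stabilizer_eq (G := G) p Q.asIdeal
  rw [Ideal.ramificationIdxIn_eq_ramificationIdx p Q.asIdeal G,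
    Ideal.inertiaDegIn_eq_inertiaDeg p Q.asIdeal G,
    hw_inertiaDeg_eq_one (s52o_B (K := K) y) (s52o_R (K := K) y) p hK Q.asIdeal, mul_one] at hcard
  have hram : (Q.asIdeal.ramificationIdx (s52o_R (K := K) y) : ℤ) =
      v.ord (y - algebraMap K F c) := by
    rw [hw_ramificationIdx_eq (F := F) (s52o_B (K := K) y) (s52o_R (K := K) y) t ht Q, ht_coe]
    have := hw_placeOfPrime_ord (K := K) (F := F) (s52o_B (K := K) y) Q (y - algebraMap K F c)
    rw [hvQ] at this
    exact this.symm
  rw [← hram, ← hcard]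
  congr 1
  -- the two stabilisers agree
  have hunit : ∀ b : s52o_B (K := K) y, b ∉ Q.asIdeal →
      (algebraMap (s52o_B (K := K) y) F b)⁻¹ ∈ v.toValuationSubring := by
    intro b hb
    rw [hw_mem_primeOfPlace_iff, not_not] at hb
    obtain ⟨w, hw⟩ := hb
    have h1 : algebraMap (s52o_B (K := K) y) F b = ((w : v.toValuationSubring) : F) := by
      rw [hw]; rfl
    have h2 : (algebraMap (s52o_B (K := K) y) F b)⁻¹ =
        ((w⁻¹ : (v.toValuationSubring)ˣ) : v.toValuationSubring) := by
      rw [h1]
      have h := congrArg (fun t : v.toValuationSubring => (t : F)) w.mul_inv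
      simp only [MulMemClass.coe_mul, OneMemClass.coe_one] at h
      exact inv_eq_of_mul_eq_one_right h
    rw [h2]
    exact ((w⁻¹ : (v.toValuationSubring)ˣ) : v.toValuationSubring).2
  have hmemQ : ∀ b : s52o_B (K := K) y, b ∈ Q.asIdeal ↔
      ¬ ((algebraMap (s52o_B (K := K) y) F b)⁻¹ ∈ v.toValuationSubring ∧
        algebraMap (s52o_B (K := K) y) F b ≠ 0) := by
    intro b
    constructor
    · rintro hb ⟨hinv, hb0⟩
      rw [hw_mem_primeOfPlace_iff] at hb
      apply hb
      refine ⟨⟨hw_inclB v hB b, ⟨_, hinv⟩, ?_, ?_⟩, rfl⟩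
      · apply Subtype.ext
        show algebraMap (s52o_B (K := K) y) F b * (algebraMap (s52o_B (K := K) y) F b)⁻¹ = 1
        exact mul_inv_cancel₀ hb0
      · apply Subtype.ext
        show (algebraMap (s52o_B (K := K) y) F b)⁻¹ * algebraMap (s52o_B (K := K) y) F b = 1
        exact inv_mul_cancel₀ hb0
    · intro h
      by_contra hb
      apply h
      refine ⟨hunit b hb, ?_⟩
      intro h0
      apply hb
      have : b = 0 := (FaithfulSMul.algebraMap_eq_zero_iff _ _).mp h0
      rw [this]
      exact Q.asIdeal.zero_mem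
  have hcoe : ∀ (σ : G) (b : s52o_B (K := K) y),
      algebraMap (s52o_B (K := K) y) F (σ • b) = σ • algebraMap (s52o_B (K := K) y) F b :=
    fun σ b => rfl
  -- a stabilising element maps `Q` into `Q`
  have hstabQ : ∀ σ : G, σ ∈ s52o_stab (K := K) v → σ⁻¹ ∈ s52o_stab (K := K) v →
      ∀ b : s52o_B (K := K) y, b ∈ Q.asIdeal → σ • b ∈ Q.asIdeal := by
    intro σ _ hσi b hb
    rw [hmemQ] at hb ⊢
    rintro ⟨hinv, h0⟩
    apply hb
    rw [hcoe] at hinv h0
    refine ⟨?_, ?_⟩
    · have := hσi _ hinv
      rwa [smul_inv'', inv_smul_smul] at this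
    · intro hb0
      apply h0
      rw [hb0, smul_zero]
  refine Nat.card_congr (Equiv.subtypeEquivRight fun σ => ?_)
  refine Iff.trans MulAction.mem_stabilizer_iff ?_
  constructor
  · intro hσ f hf
    -- `f = n / d` with `d ∉ Q`
    have hf' : Q.valuation F f ≤ 1 := by
      have : f ∈ (hw_placeOfPrime (K := K) (s52o_B (K := K) y) Q).toValuationSubring := by
        rw [hvQ]; exact hf
      rw [hw_placeOfPrime_toValuationSubring] at this
      exact (Valuation.mem_valuationSubring_iff _ _).mp this
    obtain ⟨n, d, hnd⟩ := Q.exists_primeCompl_mul_eq_of_integer f hf'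
    have hd : (d : s52o_B (K := K) y) ∉ Q.asIdeal := d.2
    have hσd : σ • (d : s52o_B (K := K) y) ∉ Q.asIdeal := by
      intro h
      apply hd
      have h' : σ • (d : s52o_B (K := K) y) ∈ σ • Q.asIdeal := by rw [hσ]; exact h
      exact Ideal.smul_mem_pointwise_smul_iff.mp h'
    have hd0 : algebraMap (s52o_B (K := K) y) F (σ • (d : s52o_B (K := K) y)) ≠ 0 := by
      intro h0
      apply hσd
      have : σ • (d : s52o_B (K := K) y) = 0 := (FaithfulSMul.algebraMap_eq_zero_iff _ _).mp h0
      rw [this]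
      exact Q.asIdeal.zero_mem
    have h1 : σ • f * algebraMap (s52o_B (K := K) y) F (σ • (d : s52o_B (K := K) y)) =
        algebraMap (s52o_B (K := K) y) F (σ • n) := by
      rw [hcoe σ (d : s52o_B (K := K) y), hcoe σ n, ← hnd]
      exact (smul_mul' σ f _).symm
    have h2 : σ • f = algebraMap (s52o_B (K := K) y) F (σ • n) *
        (algebraMap (s52o_B (K := K) y) F (σ • (d : s52o_B (K := K) y)))⁻¹ := by
      rw [← h1, mul_assoc, mul_inv_cancel₀ hd0, mul_one]
    rw [h2]
    exact v.toValuationSubring.mul_mem _ _ (hB _) (hunit _ hσd)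
  · intro hσ
    have hσi := s52o_stab_inv hσ
    apply le_antisymm
    · intro b hb
      have hb' := Ideal.mem_pointwise_smul_iff_inv_smul_mem.mp hb
      have := hstabQ σ hσ hσi _ hb'
      rwa [smul_inv_smul] at this
    · intro b hb
      refine Ideal.mem_pointwise_smul_iff_inv_smul_mem.mpr ?_
      exact hstabQ σ⁻¹ hσi (by rwa [inv_inv]) b hb

end Main

section Galois

variable [IsAlgClosed K] [CharZero K] {x : F} (hx : Transcendental K x)
  [FiniteDimensional K⟮x⟯ F] [IsGalois K⟮x⟯ F]

include hx in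
/-- **[STAB-ORD]** for `Gal(F/K(x))` at a finite point: `ord_v (x - c) = #Stab(v)`. -/
theorem s52o_ord_eq_card_stab (c : K) (v : Place K F)
    (hv : 0 < v.ord (x - algebraMap K F c)) :
    v.ord (x - algebraMap K F c) =
      (Nat.card {σ : F ≃ₐ[K⟮x⟯] F // ∀ f : F, f ∈ v.toValuationSubring →
        σ f ∈ v.toValuationSubring} : ℤ) :=
  s52o_ord_eq_card_stab' (G := F ≃ₐ[K⟮x⟯] F) hx c v hv

omit [IsAlgClosed K] [CharZero K] [FiniteDimensional K⟮x⟯ F] [IsGalois K⟮x⟯ F] in
theorem s52o_adjoin_inv : K⟮x⁻¹⟯ = K⟮x⟯ := by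
  apply le_antisymm
  · rw [IntermediateField.adjoin_simple_le_iff]
    exact inv_mem (IntermediateField.mem_adjoin_simple_self K x)
  · rw [IntermediateField.adjoin_simple_le_iff]
    have := inv_mem (IntermediateField.mem_adjoin_simple_self K x⁻¹)
    rwa [inv_inv] at this

include hx in
/-- **[STAB-ORD]** for `Gal(F/K(x))` at infinity: `- ord_v x = #Stab(v)` at a pole of `x`. -/
theorem s52o_ord_eq_card_stab_infty (v : Place K F) (hv : v.ord x < 0) :
    - v.ord x =
      (Nat.card {σ : F ≃ₐ[K⟮x⟯] F // ∀ f : F, f ∈ v.toValuationSubring →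
        σ f ∈ v.toValuationSubring} : ℤ) := by
  have heq : K⟮x⁻¹⟯ = K⟮x⟯ := s52o_adjoin_inv
  have hx' : Transcendental K x⁻¹ := by
    intro h
    apply hx
    have := h.inv
    rwa [inv_inv] at this
  have hfd : FiniteDimensional K⟮x⁻¹⟯ F := by
    rw [heq]; infer_instance
  have hG : IsGaloisGroup (F ≃ₐ[K⟮x⟯] F) K⟮x⟯ F := inferInstance
  have hG' : IsGaloisGroup (F ≃ₐ[K⟮x⟯] F) K⟮x⁻¹⟯ F := by
    rw [heq]; exact hG
  have hv' : 0 < v.ord (x⁻¹ - algebraMap K F 0) := by
    rw [map_zero, sub_zero, Place.ord_inv]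
    omega
  have := s52o_ord_eq_card_stab' (G := F ≃ₐ[K⟮x⟯] F) (y := x⁻¹) hx' 0 v hv'
  rw [map_zero, sub_zero, Place.ord_inv] at this
  exact this

end Galois

end Fermat.Agent.S52
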